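import Mathlib

/-!
# S18, package HAUPT (helper7666): the integral closure of `R[j]` in `K(t)` is `R[t, t⁻¹]`

Abstract (Mathlib-only) form of the statement "`A_fin(r) = R[t, 1/t]`" of the S18 route (§4.2):

Let `R` be an integrally closed domain with fraction field `K`, `F = K(t)` with `t` transcendental
over `K`, and `j ∈ F` with `j * t ^ m = P(t)` for a monic `P ∈ R[X]` with `0 < m < deg P` and
`P(0) ∈ Rˣ` (for `X₀(2)`: `P = (X + 256)³`, `m = 2`, `R = ℤ_(3)`; for `X₀(3)`:
`P = (X + 27)(X + 243)³`, `m = 3`, `R = ℤ_(2)`).  Then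

* `isIntegral_adjoin_self` : `t` is integral over `R[j]`;
* `isIntegral_adjoin_inv`  : `t⁻¹` is integral over `R[j]`;
* `mem_adjoin_pair_of_isIntegral` : `R[t, t⁻¹]` is integrally closed in `F`;
* `isIntegral_adjoin_iff_mem_adjoin_pair` : `x` integral over `R[j]` iff `x ∈ R[t, t⁻¹]`;
* `isIntegral_adjoin_iff_isIntegral_adjoin_pair` : in ANY extension `E ⊇ F` (no hypothesis
  `F = K(t)` needed), `x` is integral over `R[j]` iff it is integral over `R[t, t⁻¹]`.
-/

set_option autoImplicit false

namespace Fermat.Agent.S18.HAUPT7666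

open Polynomial

section General

variable {R F : Type*} [CommRing R] [Field F] [Algebra R F]

/-- Every element of `R[t, t⁻¹]` is of the form `p(t) / t ^ n`. -/
theorem exists_mul_pow_eq_aeval (t : F) (ht0 : t ≠ 0) {z : F}
    (hz : z ∈ Algebra.adjoin R {t, t⁻¹}) :
    ∃ (p : R[X]) (n : ℕ), z * t ^ n = aeval t p := by
  induction hz using Algebra.adjoin_induction with
  | mem x hx =>
    rcases hx with rfl | rfl
    · exact ⟨X, 0, by simp⟩
    · exact ⟨1, 1, by simp [inv_mul_cancel₀ ht0]⟩
  | algebraMap r => exact ⟨C r, 0, by simp⟩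
  | add x y _ _ hx hy =>
    obtain ⟨p, n, hp⟩ := hx
    obtain ⟨q, k, hq⟩ := hy
    refine ⟨p * X ^ k + q * X ^ n, n + k, ?_⟩
    simp only [map_add, map_mul, map_pow, aeval_X, ← hp, ← hq]
    ring
  | mul x y _ _ hx hy =>
    obtain ⟨p, n, hp⟩ := hx
    obtain ⟨q, k, hq⟩ := hy
    refine ⟨p * q, n + k, ?_⟩
    simp only [map_mul, ← hp, ← hq]
    ring

/-- `t` is integral over `R[j]` when `j * t ^ m = P(t)` with `P` monic of degree `> m`. -/
theorem isIntegral_adjoin_self (t j : F) (P : R[X]) (hP : P.Monic) (m : ℕ)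
    (hm : m < P.natDegree) (hj : j * t ^ m = aeval t P) :
    IsIntegral (Algebra.adjoin R {j}) t := by
  have hjA : j ∈ Algebra.adjoin R {j} := Algebra.subset_adjoin (Set.mem_singleton j)
  refine ⟨P.map (algebraMap R (Algebra.adjoin R {j})) -
    C (⟨j, hjA⟩ : Algebra.adjoin R {j}) * X ^ m, ?_, ?_⟩
  · refine (hP.map _).sub_of_left ?_
    rw [degree_eq_natDegree (hP.map (algebraMap R (Algebra.adjoin R {j}))).ne_zero,
      hP.natDegree_map]
    refine lt_of_le_of_lt (degree_C_mul_X_pow_le m _) ?_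
    exact_mod_cast hm
  · rw [eval₂_sub, eval₂_mul, eval₂_C, eval₂_X_pow, eval₂_map, ← IsScalarTower.algebraMap_eq,
      ← aeval_def]
    show aeval t P - j * t ^ m = 0
    rw [hj, sub_self]

/-- `R[t] ⊆` the integral closure of `R[j]`, in the situation of `isIntegral_adjoin_self`. -/
theorem isIntegral_adjoin_aeval (t j : F) (P : R[X]) (hP : P.Monic) (m : ℕ)
    (hm : m < P.natDegree) (hj : j * t ^ m = aeval t P) (G : R[X]) :
    IsIntegral (Algebra.adjoin R {j}) (aeval t G) := by
  have ht := isIntegral_adjoin_self t j P hP m hm hj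
  have hle : Algebra.adjoin R {t} ≤
      (integralClosure (Algebra.adjoin R {j}) F).restrictScalars R :=
    Algebra.adjoin_le (by
      rintro x rfl
      exact ht)
  exact hle (aeval_mem_adjoin_singleton R t)

/-- `t⁻¹` is integral over `R[j]` when `j * t ^ m = P(t)`, `P` monic, `0 < m < deg P`,
`P(0)` a unit. -/
theorem isIntegral_adjoin_inv (t j : F) (P : R[X]) (hP : P.Monic) (m : ℕ) (hm0 : 0 < m)
    (hm : m < P.natDegree) (hP0 : IsUnit (P.coeff 0)) (hj : j * t ^ m = aeval t P) :
    IsIntegral (Algebra.adjoin R {j}) t⁻¹ := by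
  have ht := isIntegral_adjoin_self t j P hP m hm hj
  have hG := isIntegral_adjoin_aeval t j P hP m hm hj P.divX
  have hjA : j ∈ Algebra.adjoin R {j} := Algebra.subset_adjoin (Set.mem_singleton j)
  have hjint : IsIntegral (Algebra.adjoin R {j}) j :=
    isIntegral_algebraMap (x := (⟨j, hjA⟩ : Algebra.adjoin R {j}))
  obtain ⟨v, hv⟩ := hP0.exists_right_inv
  have hvint : IsIntegral (Algebra.adjoin R {j}) (algebraMap R F v) := by
    rw [IsScalarTower.algebraMap_apply R (Algebra.adjoin R {j}) F]
    exact isIntegral_algebraMap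
  have hdecomp : aeval t P = aeval t P.divX * t + algebraMap R F (P.coeff 0) := by
    conv_lhs => rw [← divX_mul_X_add P]
    simp
  have hm1 : t ^ m = t ^ (m - 1) * t := by
    rw [← pow_succ, Nat.sub_add_cancel hm0]
  have hone : algebraMap R F (P.coeff 0) * algebraMap R F v = 1 := by
    rw [← map_mul, hv, map_one]
  have hkey : t * (algebraMap R F v * (j * t ^ (m - 1) - aeval t P.divX)) = 1 := by
    have h1 : algebraMap R F (P.coeff 0) = t * (j * t ^ (m - 1) - aeval t P.divX) := by
      have h2 : algebraMap R F (P.coeff 0) = j * t ^ m - aeval t P.divX * t := by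
        rw [hj, hdecomp]; ring
      rw [h2, hm1]; ring
    calc t * (algebraMap R F v * (j * t ^ (m - 1) - aeval t P.divX))
        = (t * (j * t ^ (m - 1) - aeval t P.divX)) * algebraMap R F v := by ring
      _ = 1 := by rw [← h1, hone]
  have hinv : t⁻¹ = algebraMap R F v * (j * t ^ (m - 1) - aeval t P.divX) :=
    inv_eq_of_mul_eq_one_right hkey
  rw [hinv]
  exact hvint.mul ((hjint.mul (ht.pow _)).sub hG)

end General

section Closed

variable {R F : Type*} [CommRing R] [IsDomain R] [Field F] [Algebra R F]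

omit [IsDomain R] in
/-- Integrality over a subalgebra passes to a larger subalgebra. -/
theorem isIntegral_of_subalgebra_le {A B : Subalgebra R F} (h : A ≤ B) {x : F}
    (hx : IsIntegral A x) : IsIntegral B x := by
  obtain ⟨p, hp, hpx⟩ := hx
  refine ⟨p.map (Subalgebra.inclusion h).toRingHom, hp.map _, ?_⟩
  rw [eval₂_map]
  exact hpx

/-- `R[t, t⁻¹]` is the localisation of `R[X]` at `X`, hence integrally closed, for `t`
transcendental over the integrally closed domain `R`. -/
theorem isIntegrallyClosed_adjoin_pair [IsIntegrallyClosed R] (t : F) (ht : Transcendental R t) :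
    IsIntegrallyClosed (Algebra.adjoin R {t, t⁻¹}) := by
  have ht0 : t ≠ 0 := fun h => ht (h ▸ isAlgebraic_zero)
  let tS : Algebra.adjoin R {t, t⁻¹} := ⟨t, Algebra.subset_adjoin (by simp)⟩
  let tinvS : Algebra.adjoin R {t, t⁻¹} := ⟨t⁻¹, Algebra.subset_adjoin (by simp)⟩
  have hunit : tS * tinvS = 1 := Subtype.ext (mul_inv_cancel₀ ht0)
  let φ : R[X] →ₐ[R] Algebra.adjoin R {t, t⁻¹} := aeval tS
  let _ : Algebra R[X] (Algebra.adjoin R {t, t⁻¹}) := φ.toRingHom.toAlgebra
  have hφ : ∀ p : R[X], ((algebraMap R[X] (Algebra.adjoin R {t, t⁻¹}) p :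
      Algebra.adjoin R {t, t⁻¹}) : F) = aeval t p := fun p =>
    (Subalgebra.aeval_coe _ tS p).symm
  have : IsLocalization (Submonoid.powers (X : R[X])) (Algebra.adjoin R {t, t⁻¹}) := by
    rw [isLocalization_iff]
    refine ⟨?_, ?_, ?_⟩
    · rintro ⟨_, n, rfl⟩
      refine IsUnit.of_mul_eq_one (tinvS ^ n) ?_
      show φ (X ^ n) * tinvS ^ n = 1
      rw [map_pow, aeval_X, ← mul_pow, hunit, one_pow]
    · intro z
      obtain ⟨p, n, h⟩ := exists_mul_pow_eq_aeval t ht0 z.2
      refine ⟨(p, ⟨X ^ n, n, rfl⟩), Subtype.ext ?_⟩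
      rw [Subalgebra.coe_mul, hφ, hφ, map_pow, aeval_X]
      exact h
    · intro x y hxy
      refine ⟨1, ?_⟩
      have h1 : aeval t x = aeval t y := by rw [← hφ, ← hφ, hxy]
      rw [transcendental_iff_injective.mp ht h1]
  exact isIntegrallyClosed_of_isLocalization (Algebra.adjoin R {t, t⁻¹})
    (Submonoid.powers (X : R[X])) (powers_le_nonZeroDivisors_of_noZeroDivisors X_ne_zero)

variable {K : Type*} [Field K] [Algebra R K] [IsFractionRing R K] [Algebra K F]
  [IsScalarTower R K F]

/-- Every element of `K(t)` is a quotient of two elements of `R[t, t⁻¹]` (`K = Frac R`). -/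
theorem exists_eq_div_of_mem_adjoin_simple (t : F) {z : F}
    (hz : z ∈ IntermediateField.adjoin K {t}) :
    ∃ a b : Algebra.adjoin R {t, t⁻¹}, z = (a : F) / (b : F) := by
  obtain ⟨r, s, rfl⟩ := (IntermediateField.mem_adjoin_simple_iff K z).1 hz
  obtain ⟨br, hbrM, hbr⟩ := IsLocalization.integerNormalization_spec (nonZeroDivisors R) r
  obtain ⟨bs, hbsM, hbs⟩ := IsLocalization.integerNormalization_spec (nonZeroDivisors R) s
  set r' := IsLocalization.integerNormalization (nonZeroDivisors R) r with hr'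
  set s' := IsLocalization.integerNormalization (nonZeroDivisors R) s with hs'
  have hmemS : ∀ p : R[X], aeval t p ∈ Algebra.adjoin R {t, t⁻¹} := fun p =>
    (Algebra.adjoin_mono (by simp : ({t} : Set F) ⊆ {t, t⁻¹})) (aeval_mem_adjoin_singleton R t)
  have hbr0 : algebraMap R F br ≠ 0 := by
    rw [IsScalarTower.algebraMap_apply R K F]
    exact (_root_.map_ne_zero _).mpr (IsFractionRing.to_map_ne_zero_of_mem_nonZeroDivisors hbrM)
  have hbs0 : algebraMap R F bs ≠ 0 := by
    rw [IsScalarTower.algebraMap_apply R K F]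
    exact (_root_.map_ne_zero _).mpr (IsFractionRing.to_map_ne_zero_of_mem_nonZeroDivisors hbsM)
  have hr : aeval t r' = algebraMap R F br * aeval t r := by
    rw [← aeval_map_algebraMap K t r', hbr, algebra_compatible_smul K br r, map_smul,
      Algebra.smul_def, ← IsScalarTower.algebraMap_apply]
  have hs : aeval t s' = algebraMap R F bs * aeval t s := by
    rw [← aeval_map_algebraMap K t s', hbs, algebra_compatible_smul K bs s, map_smul,
      Algebra.smul_def, ← IsScalarTower.algebraMap_apply]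
  refine ⟨algebraMap R _ bs * ⟨aeval t r', hmemS r'⟩,
    algebraMap R _ br * ⟨aeval t s', hmemS s'⟩, ?_⟩
  show aeval t r / aeval t s =
    (algebraMap R F bs * aeval t r') / (algebraMap R F br * aeval t s')
  rw [hr, hs]
  field_simp

/-- If `F = K(t)`, `K = Frac R`, then `F` is the fraction field of `R[t, t⁻¹]`. -/
theorem isFractionRing_adjoin_pair (t : F) (hF : IntermediateField.adjoin K {t} = ⊤) :
    IsFractionRing (Algebra.adjoin R {t, t⁻¹}) F := by
  apply IsFractionRing.of_field
  intro z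
  have hz : z ∈ IntermediateField.adjoin K {t} := hF ▸ IntermediateField.mem_top
  obtain ⟨a, b, h⟩ := exists_eq_div_of_mem_adjoin_simple (R := R) (K := K) t hz
  exact ⟨a, b, h⟩

omit [IsDomain R] [IsFractionRing R K] [IsScalarTower R K F] in
/-- An integrally closed subalgebra `S` of a field contains every element of its fraction field
that is integral over `S`. -/
theorem mem_of_isIntegral_of_eq_div (S : Subalgebra R F) [IsIntegrallyClosed S] {x : F}
    (a b : S) (hx : x = (a : F) / (b : F)) (hint : IsIntegral S x) : x ∈ S := by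
  by_cases hb : b = 0
  · rw [hx, hb]
    simp
  have hg : Function.Injective (Algebra.ofId S F) := Subtype.val_injective
  let ψ : FractionRing S →ₐ[S] F := IsFractionRing.liftAlgHom (K := FractionRing S) hg
  have hψ : ψ (algebraMap S (FractionRing S) a / algebraMap S (FractionRing S) b) = x := by
    rw [map_div₀, IsFractionRing.liftAlgHom_apply, IsFractionRing.liftAlgHom_apply,
      IsFractionRing.lift_algebraMap, IsFractionRing.lift_algebraMap, hx]
    rfl
  have hint' : IsIntegral S
      (algebraMap S (FractionRing S) a / algebraMap S (FractionRing S) b) :=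
    (isIntegral_algHom_iff ψ (ψ : FractionRing S →+* F).injective).mp (by rwa [hψ])
  obtain ⟨y, hy⟩ := IsIntegrallyClosed.isIntegral_iff.mp hint'
  have hxy : x = (y : F) := by
    rw [← hψ, ← hy, IsFractionRing.liftAlgHom_apply, IsFractionRing.lift_algebraMap]
    rfl
  rw [hxy]
  exact y.2

/-- `R[t, t⁻¹]` is integrally closed in `K(t)`, inside any field `F ⊇ K(t)`. -/
theorem mem_adjoin_pair_of_isIntegral_of_mem [IsIntegrallyClosed R] (t : F)
    (ht : Transcendental K t) {x : F} (hxF : x ∈ IntermediateField.adjoin K {t})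
    (hx : IsIntegral (Algebra.adjoin R {t, t⁻¹}) x) : x ∈ Algebra.adjoin R {t, t⁻¹} := by
  have := isIntegrallyClosed_adjoin_pair (R := R) t
    (ht.restrictScalars (IsFractionRing.injective R K))
  obtain ⟨a, b, h⟩ := exists_eq_div_of_mem_adjoin_simple (R := R) (K := K) t hxF
  exact mem_of_isIntegral_of_eq_div _ a b h hx

/-- `R[t, t⁻¹]` is integrally closed in `F = K(t)`. -/
theorem mem_adjoin_pair_of_isIntegral [IsIntegrallyClosed R] (t : F) (ht : Transcendental K t)
    (hF : IntermediateField.adjoin K {t} = ⊤) {x : F}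
    (hx : IsIntegral (Algebra.adjoin R {t, t⁻¹}) x) : x ∈ Algebra.adjoin R {t, t⁻¹} := by
  have := isIntegrallyClosed_adjoin_pair (R := R) t
    (ht.restrictScalars (IsFractionRing.injective R K))
  have := isFractionRing_adjoin_pair (R := R) (K := K) t hF
  obtain ⟨y, rfl⟩ := IsIntegrallyClosed.isIntegral_iff.mp hx
  exact y.2

end Closed

section Main

variable {R F : Type*} [CommRing R] [IsDomain R] [Field F] [Algebra R F]

omit [IsDomain R] in
/-- `j = P(t) / t ^ m` lies in `R[t, t⁻¹]`. -/
theorem mem_adjoin_pair_of_mul_pow_eq (t j : F) (ht0 : t ≠ 0) (P : R[X]) (m : ℕ)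
    (hj : j * t ^ m = aeval t P) : j ∈ Algebra.adjoin R {t, t⁻¹} := by
  have h : j = aeval t P * t⁻¹ ^ m := by
    rw [← hj, mul_assoc, ← mul_pow, mul_inv_cancel₀ ht0, one_pow, mul_one]
  rw [h]
  exact mul_mem
    ((Algebra.adjoin_mono (by simp : ({t} : Set F) ⊆ {t, t⁻¹})) (aeval_mem_adjoin_singleton R t))
    (pow_mem (Algebra.subset_adjoin (by simp)) m)

omit [IsDomain R] in
/-- `R[t, t⁻¹]` is contained in the integral closure of `R[j]`. -/
theorem adjoin_pair_le_integralClosure (t j : F) (P : R[X]) (hP : P.Monic) (m : ℕ) (hm0 : 0 < m)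
    (hm : m < P.natDegree) (hP0 : IsUnit (P.coeff 0)) (hj : j * t ^ m = aeval t P) :
    Algebra.adjoin R {t, t⁻¹} ≤
      (integralClosure (Algebra.adjoin R {j}) F).restrictScalars R :=
  Algebra.adjoin_le (by
    rintro x (rfl | rfl)
    · exact isIntegral_adjoin_self x j P hP m hm hj
    · exact isIntegral_adjoin_inv t j P hP m hm0 hm hP0 hj)

omit [IsDomain R] in
/-- In any field `F` containing `t` and `j = P(t) / t ^ m`: integral over `R[j]` is the same as
integral over `R[t, t⁻¹]`.  (Apply this with `F` := a larger function field to get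
"`A_fin(M)` = integral closure of `R[t, t⁻¹]` in `F_M`".) -/
theorem isIntegral_adjoin_iff_isIntegral_adjoin_pair (t j : F) (P : R[X]) (hP : P.Monic) (m : ℕ)
    (hm0 : 0 < m) (hm : m < P.natDegree) (hP0 : IsUnit (P.coeff 0))
    (hj : j * t ^ m = aeval t P) (x : F) :
    IsIntegral (Algebra.adjoin R {j}) x ↔ IsIntegral (Algebra.adjoin R {t, t⁻¹}) x := by
  have ht0 : t ≠ 0 := by
    rintro rfl
    have h0 : aeval (0 : F) P = 0 := by
      rw [← hj, zero_pow hm0.ne', mul_zero]
    rw [aeval_def, eval₂_at_zero] at h0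
    exact (hP0.map (algebraMap R F)).ne_zero h0
  constructor
  · intro hx
    exact isIntegral_of_subalgebra_le (Algebra.adjoin_le (by
      rintro y rfl
      exact mem_adjoin_pair_of_mul_pow_eq t y ht0 P m hj)) hx
  · intro hx
    have h1 : IsIntegral ((integralClosure (Algebra.adjoin R {j}) F).restrictScalars R) x :=
      isIntegral_of_subalgebra_le (adjoin_pair_le_integralClosure t j P hP m hm0 hm hP0 hj) hx
    have h2 : IsIntegral (integralClosure (Algebra.adjoin R {j}) F) x := h1
    exact isIntegral_trans x h2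

variable {K : Type*} [Field K] [Algebra R K] [IsFractionRing R K] [Algebra K F]
  [IsScalarTower R K F]

/-- **`A_fin = R[t, t⁻¹]`.**  If `F = K(t)` with `t` transcendental over `K = Frac R`, `R`
integrally closed, and `j * t ^ m = P(t)` with `P ∈ R[X]` monic, `0 < m < deg P`, `P(0) ∈ Rˣ`,
then the integral closure of `R[j]` in `F` is `R[t, t⁻¹]`. -/
theorem isIntegral_adjoin_iff_mem_adjoin_pair [IsIntegrallyClosed R] (t j : F)
    (ht : Transcendental K t) (hF : IntermediateField.adjoin K {t} = ⊤)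
    (P : R[X]) (hP : P.Monic) (m : ℕ) (hm0 : 0 < m) (hm : m < P.natDegree)
    (hP0 : IsUnit (P.coeff 0)) (hj : j * t ^ m = aeval t P) (x : F) :
    IsIntegral (Algebra.adjoin R {j}) x ↔ x ∈ Algebra.adjoin R {t, t⁻¹} := by
  rw [isIntegral_adjoin_iff_isIntegral_adjoin_pair t j P hP m hm0 hm hP0 hj x]
  constructor
  · exact mem_adjoin_pair_of_isIntegral (K := K) t ht hF
  · intro hx
    exact isIntegral_algebraMap (x := (⟨x, hx⟩ : Algebra.adjoin R {t, t⁻¹}))

/-- **`A_fin = R[t, t⁻¹]`**, version inside a larger field `F ⊇ K(t)`: for `x ∈ K(t)`,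
`x` is integral over `R[j]` iff `x ∈ R[t, t⁻¹]`. -/
theorem isIntegral_adjoin_iff_mem_adjoin_pair_of_mem [IsIntegrallyClosed R] (t j : F)
    (ht : Transcendental K t)
    (P : R[X]) (hP : P.Monic) (m : ℕ) (hm0 : 0 < m) (hm : m < P.natDegree)
    (hP0 : IsUnit (P.coeff 0)) (hj : j * t ^ m = aeval t P) (x : F)
    (hxF : x ∈ IntermediateField.adjoin K {t}) :
    IsIntegral (Algebra.adjoin R {j}) x ↔ x ∈ Algebra.adjoin R {t, t⁻¹} := by
  rw [isIntegral_adjoin_iff_isIntegral_adjoin_pair t j P hP m hm0 hm hP0 hj x]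
  constructor
  · exact mem_adjoin_pair_of_isIntegral_of_mem (K := K) t ht hxF
  · intro hx
    exact isIntegral_algebraMap (x := (⟨x, hx⟩ : Algebra.adjoin R {t, t⁻¹}))

end Main

end Fermat.Agent.S18.HAUPT7666
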