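import Mathlib

/-!
# S18, package HAUPT (helper7666): `t_r ∈ k(j, j(q^r))` by Eisenstein + gcd (abstract, Mathlib-only)

Let `k` be a field, `t ∈ k((q))` with `1/t = w ∈ q k⟦q⟧ \ q² k⟦q⟧` (a simple pole), and
`j, j₂ ∈ k((q))` with `j t² = (t + 256)³`, `j₂ t = (t + 16)³` (level 2; `2 ≠ 0` in `k`), resp.
`j t³ = (t + 27)(t + 243)³`, `j₃ t = (t + 27)(t + 3)³` (level 3; `3 ≠ 0` in `k`).
Then `t` lies in every subfield of `k((q))` containing `j` and `j_r`.

Proof.  `F = (Y + 256)³ - j Y² = (Y - t) H` where `H ∈ k⟦q⟧[Y]` is monic with all lower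
coefficients in `(q)` and constant coefficient `-256³ w ∉ (q²)`: Eisenstein, so `H` is irreducible
over `k((q))`.  `G = (Y + 16)³ - j₂ Y = (Y - t) H₂` where the `Y`-coefficient `48 + t` of `H₂` has a
pole, so `H₂ ≠ H`, hence `gcd(H, H₂) = 1`, `gcd(F, G) = Y - t`, and the minimal polynomial of `t`
over `K₀ ∋ j, j₂` has degree one.  No characteristic assumption beyond `2 ≠ 0` (resp. `3 ≠ 0`):
the statement also holds over `𝔽_ℓ`.
-/

set_option autoImplicit false

namespace Fermat.Agent.S18.HAUPT7666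

open Polynomial

section Core

variable {L : Type*} [Field L]

/-- If `F₀, G₀ ∈ K₀[Y]` factor over `L` as `(Y - t) h`, `(Y - t) h₂` with `h, h₂` coprime, then
`t ∈ K₀`. -/
theorem mem_subfield_of_common_root (K₀ : Subfield L) (t : L) (F₀ G₀ : K₀[X]) (h h₂ : L[X])
    (hF0 : F₀ ≠ 0)
    (hF : F₀.map K₀.subtype = (X - C t) * h) (hG : G₀.map K₀.subtype = (X - C t) * h₂)
    (hcop : IsCoprime h h₂) : t ∈ K₀ := by
  have hrootF : aeval t F₀ = 0 := by
    have h1 : aeval t F₀ = eval t (F₀.map K₀.subtype) := by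
      rw [eval_map]; rfl
    rw [h1, hF]; simp
  have hrootG : aeval t G₀ = 0 := by
    have h1 : aeval t G₀ = eval t (G₀.map K₀.subtype) := by
      rw [eval_map]; rfl
    rw [h1, hG]; simp
  have halg : IsAlgebraic K₀ t := ⟨F₀, hF0, hrootF⟩
  have hint : IsIntegral K₀ t := halg.isIntegral
  have h1 : (minpoly K₀ t).map K₀.subtype ∣ (X - C t) * h :=
    hF ▸ Polynomial.map_dvd _ (minpoly.dvd K₀ t hrootF)
  have h2 : (minpoly K₀ t).map K₀.subtype ∣ (X - C t) * h₂ :=
    hG ▸ Polynomial.map_dvd _ (minpoly.dvd K₀ t hrootG)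
  obtain ⟨u, v, huv⟩ := hcop
  have h3 : (minpoly K₀ t).map K₀.subtype ∣ X - C t := by
    have e : X - C t = u * ((X - C t) * h) + v * ((X - C t) * h₂) := by
      linear_combination (-(X - C t)) * huv
    rw [e]
    exact dvd_add (dvd_mul_of_dvd_right h1 _) (dvd_mul_of_dvd_right h2 _)
  have hdeg : (minpoly K₀ t).natDegree ≤ 1 := by
    have h4 := natDegree_le_of_dvd h3 (X_sub_C_ne_zero t)
    rwa [natDegree_map, natDegree_X_sub_C] at h4
  have hdeg1 : (minpoly K₀ t).natDegree = 1 := le_antisymm hdeg (minpoly.natDegree_pos hint)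
  obtain ⟨y, hy⟩ := (minpoly.natDegree_eq_one_iff).mp hdeg1
  rw [← hy]
  exact y.2

end Core

section Eisenstein

variable {k : Type*} [Field k]

/-- A monic Eisenstein polynomial over `k⟦q⟧` (at the prime `(q)`) is irreducible over
`k((q))`. -/
theorem irreducible_map_ofPowerSeries (H : (PowerSeries k)[X]) (hH : H.Monic)
    (hdeg : 0 < H.natDegree)
    (hmem : ∀ n, n < H.natDegree → PowerSeries.constantCoeff (H.coeff n) = 0)
    (h0 : PowerSeries.coeff 1 (H.coeff 0) ≠ 0) :
    Irreducible (H.map (HahnSeries.ofPowerSeries ℤ k)) := by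
  have hprime : (Ideal.span {(PowerSeries.X : PowerSeries k)}).IsPrime := PowerSeries.span_X_isPrime
  have hE : H.IsEisensteinAt (Ideal.span {(PowerSeries.X : PowerSeries k)}) := by
    refine hH.isEisensteinAt_of_mem_of_notMem hprime.ne_top (fun {n} hn => ?_) ?_
    · rw [Ideal.mem_span_singleton, PowerSeries.X_dvd_iff]
      exact hmem n hn
    · rw [Ideal.span_singleton_pow, Ideal.mem_span_singleton, PowerSeries.X_pow_dvd_iff]
      intro hall
      exact h0 (hall 1 (by norm_num))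
  have hirr : Irreducible H := hE.irreducible hprime hH.isPrimitive hdeg
  have h1 := (Monic.irreducible_iff_irreducible_map_fraction_map
    (K := LaurentSeries k) hH).mp hirr
  exact h1

end Eisenstein

section Level2

variable {k : Type*} [Field k]

theorem natDegree_X_pow_add_of_degree_lt {R : Type*} [Semiring R] [Nontrivial R] {n : ℕ}
    {p : R[X]} (h : p.degree < (n : WithBot ℕ)) : (X ^ n + p).natDegree = n := by
  rw [natDegree_add_eq_left_of_degree_lt (by rwa [degree_X_pow]), natDegree_X_pow]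

/-- **Level 2.**  `t ∈ K₀` for every subfield `K₀ ∋ j, j₂` of `k((q))`, if `j t² = (t + 256)³`,
`j₂ t = (t + 16)³`, `1/t = w` with `w ∈ (q) \ (q²)`, and `2 ≠ 0` in `k`. -/
theorem mem_of_haupt_two (h2 : (2 : k) ≠ 0) (K₀ : Subfield (LaurentSeries k))
    (j j₂ t : LaurentSeries k) (w : PowerSeries k)
    (hw0 : PowerSeries.constantCoeff w = 0) (hw1 : PowerSeries.coeff 1 w ≠ 0)
    (htw : t * HahnSeries.ofPowerSeries ℤ k w = 1)
    (hj : j ∈ K₀) (hj₂ : j₂ ∈ K₀)
    (e1 : j * t ^ 2 = (t + 256) ^ 3) (e2 : j₂ * t = (t + 16) ^ 3) : t ∈ K₀ := by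
  set W : LaurentSeries k := HahnSeries.ofPowerSeries ℤ k w with hW
  set c₀ : PowerSeries k := -16777216 * w with hc₀
  set c₁ : PowerSeries k := (c₀ - 196608) * w with hc₁
  set H : (PowerSeries k)[X] := X ^ 2 + (C c₁ * X + C c₀) with hH
  have hHdeg : (C c₁ * X + C c₀ : (PowerSeries k)[X]).degree < ((2 : ℕ) : WithBot ℕ) :=
    lt_of_le_of_lt (degree_linear_le) (by norm_num)
  have hHmonic : H.Monic := monic_X_pow_add hHdeg
  have hHnat : H.natDegree = 2 := natDegree_X_pow_add_of_degree_lt hHdeg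
  have hcoeff0 : H.coeff 0 = c₀ := by simp [hH]
  have hcoeff1 : H.coeff 1 = c₁ := by simp [hH]
  have h16 : (16777216 : k) ≠ 0 := by
    have : (16777216 : k) = 2 ^ 24 := by norm_num
    rw [this]
    exact pow_ne_zero _ h2
  have hirr : Irreducible (H.map (HahnSeries.ofPowerSeries ℤ k)) := by
    refine irreducible_map_ofPowerSeries H hHmonic (by rw [hHnat]; norm_num) ?_ ?_
    · intro n hn
      rw [hHnat] at hn
      interval_cases n
      · rw [hcoeff0, hc₀, map_mul, hw0, mul_zero]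
      · rw [hcoeff1, hc₁, map_mul, hw0, mul_zero]
    · rw [hcoeff0, hc₀]
      have : (-16777216 : PowerSeries k) = PowerSeries.C (-16777216 : k) := by
        rw [map_neg, map_ofNat]
      rw [this, PowerSeries.coeff_C_mul]
      exact mul_ne_zero (neg_ne_zero.mpr h16) hw1
  have hCtw : (C t : (LaurentSeries k)[X]) * C W = 1 := by rw [← C_mul, htw, C_1]
  have hjW : j = t + 768 + 196608 * W + 16777216 * W ^ 2 := by
    linear_combination (W ^ 2) * e1 +
      (-j * (t * W + 1) + (t + 768) * (t * W + 1) + 196608 * W) * htw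
  have hj₂W : j₂ = t ^ 2 + 48 * t + 768 + 4096 * W := by
    linear_combination W * e2 + (-j₂ + t ^ 2 + 48 * t + 768) * htw
  have hc₀' : HahnSeries.ofPowerSeries ℤ k c₀ = -16777216 * W := by
    rw [hc₀, map_mul, map_neg, map_ofNat]
  have hc₁' : HahnSeries.ofPowerSeries ℤ k c₁ = (-16777216 * W - 196608) * W := by
    rw [hc₁, map_mul, map_sub, hc₀', map_ofNat]
  have hHmap : H.map (HahnSeries.ofPowerSeries ℤ k) =
      X ^ 2 + (C ((-16777216 * W - 196608) * W) * X + C (-16777216 * W)) := by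
    rw [hH, Polynomial.map_add, Polynomial.map_add, Polynomial.map_pow, Polynomial.map_mul,
      map_X, map_C, map_C, hc₀', hc₁']
  have hFfac : ((X + 256) ^ 3 - C j * X ^ 2 : (LaurentSeries k)[X]) =
      (X - C t) * H.map (HahnSeries.ofPowerSeries ℤ k) := by
    rw [hHmap, hjW]
    simp only [C_add, C_mul, C_sub, C_neg, C_pow, map_ofNat]
    linear_combination (-(196608 * X + 16777216 + 16777216 * C W * X)) * hCtw
  set h₂ : (LaurentSeries k)[X] := X ^ 2 + (C (48 + t) * X + C (-4096 * W)) with hh₂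
  have hGfac : ((X + 16) ^ 3 - C j₂ * X : (LaurentSeries k)[X]) = (X - C t) * h₂ := by
    rw [hh₂, hj₂W]
    simp only [C_add, C_mul, C_neg, C_pow, map_ofNat]
    linear_combination (-4096) * hCtw
  have hh₂deg : (C (48 + t) * X + C (-4096 * W) : (LaurentSeries k)[X]).degree <
      ((2 : ℕ) : WithBot ℕ) := lt_of_le_of_lt (degree_linear_le) (by norm_num)
  have hh₂monic : h₂.Monic := monic_X_pow_add hh₂deg
  have hh₂nat : h₂.natDegree = 2 := natDegree_X_pow_add_of_degree_lt hh₂deg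
  have hcop : IsCoprime (H.map (HahnSeries.ofPowerSeries ℤ k)) h₂ := by
    refine (hirr.coprime_iff_not_dvd).mpr (fun hdvd => ?_)
    have heq : h₂ = H.map (HahnSeries.ofPowerSeries ℤ k) :=
      eq_of_monic_of_dvd_of_natDegree_le (hHmonic.map _) hh₂monic hdvd
        (by rw [hh₂nat, hHmonic.natDegree_map, hHnat])
    have hc : h₂.coeff 1 = (H.map (HahnSeries.ofPowerSeries ℤ k)).coeff 1 := by rw [← heq]
    have hc' : h₂.coeff 1 = 48 + t := by simp [hh₂]
    rw [coeff_map, hcoeff1, hc'] at hc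
    have ht : t = HahnSeries.ofPowerSeries ℤ k (c₁ - 48) := by
      rw [map_sub, ← hc, map_ofNat]; ring
    have h1 : HahnSeries.ofPowerSeries ℤ k ((c₁ - 48) * w) = 1 := by
      rw [map_mul, ← ht]; exact htw
    have h3 : (c₁ - 48) * w = 1 :=
      HahnSeries.ofPowerSeries_injective (by rw [h1, map_one])
    have h4 := congrArg PowerSeries.constantCoeff h3
    rw [map_mul, hw0, mul_zero, map_one] at h4
    exact zero_ne_one h4
  set F₀ : K₀[X] := (X + 256) ^ 3 - C (⟨j, hj⟩ : K₀) * X ^ 2 with hF₀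
  set G₀ : K₀[X] := (X + 16) ^ 3 - C (⟨j₂, hj₂⟩ : K₀) * X with hG₀
  have hFmap : F₀.map K₀.subtype = (X - C t) * H.map (HahnSeries.ofPowerSeries ℤ k) := by
    rw [← hFfac, hF₀]
    simp [Polynomial.map_sub, Polynomial.map_pow, Polynomial.map_add, Polynomial.map_mul]
  have hGmap : G₀.map K₀.subtype = (X - C t) * h₂ := by
    rw [← hGfac, hG₀]
    simp [Polynomial.map_sub, Polynomial.map_pow, Polynomial.map_add, Polynomial.map_mul]
  have hF0 : F₀ ≠ 0 := by
    intro h0
    rw [h0, Polynomial.map_zero] at hFmap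
    exact (mul_ne_zero (X_sub_C_ne_zero t) (hHmonic.map _).ne_zero) hFmap.symm
  exact mem_subfield_of_common_root K₀ t F₀ G₀ _ h₂ hF0 hFmap hGmap hcop

end Level2

section Level3

variable {k : Type*} [Field k]

/-- **Level 3.**  `t ∈ K₀` for every subfield `K₀ ∋ j, j₃` of `k((q))`, if
`j t³ = (t + 27)(t + 243)³`, `j₃ t = (t + 27)(t + 3)³`, `1/t = w` with `w ∈ (q) \ (q²)`, and
`3 ≠ 0` in `k`. -/
theorem mem_of_haupt_three (h3 : (3 : k) ≠ 0) (K₀ : Subfield (LaurentSeries k))
    (j j₃ t : LaurentSeries k) (w : PowerSeries k)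
    (hw0 : PowerSeries.constantCoeff w = 0) (hw1 : PowerSeries.coeff 1 w ≠ 0)
    (htw : t * HahnSeries.ofPowerSeries ℤ k w = 1)
    (hj : j ∈ K₀) (hj₃ : j₃ ∈ K₀)
    (e1 : j * t ^ 3 = (t + 27) * (t + 243) ^ 3) (e2 : j₃ * t = (t + 27) * (t + 3) ^ 3) :
    t ∈ K₀ := by
  set W : LaurentSeries k := HahnSeries.ofPowerSeries ℤ k w with hW
  set c₀ : PowerSeries k := -387420489 * w with hc₀
  set c₁ : PowerSeries k := (c₀ - 19131876) * w with hc₁
  set c₂ : PowerSeries k := (c₁ - 196830) * w with hc₂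
  set H : (PowerSeries k)[X] := X ^ 3 + (C c₂ * X ^ 2 + C c₁ * X + C c₀) with hH
  have hHdeg : (C c₂ * X ^ 2 + C c₁ * X + C c₀ : (PowerSeries k)[X]).degree <
      ((3 : ℕ) : WithBot ℕ) := lt_of_le_of_lt (degree_quadratic_le) (by norm_num)
  have hHmonic : H.Monic := monic_X_pow_add hHdeg
  have hHnat : H.natDegree = 3 := natDegree_X_pow_add_of_degree_lt hHdeg
  have hcoeff0 : H.coeff 0 = c₀ := by simp [hH]
  have hcoeff1 : H.coeff 1 = c₁ := by simp [hH]
  have hcoeff2 : H.coeff 2 = c₂ := by simp [hH]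
  have h38 : (387420489 : k) ≠ 0 := by
    have : (387420489 : k) = 3 ^ 18 := by norm_num
    rw [this]
    exact pow_ne_zero _ h3
  have hirr : Irreducible (H.map (HahnSeries.ofPowerSeries ℤ k)) := by
    refine irreducible_map_ofPowerSeries H hHmonic (by rw [hHnat]; norm_num) ?_ ?_
    · intro n hn
      rw [hHnat] at hn
      interval_cases n
      · rw [hcoeff0, hc₀, map_mul, hw0, mul_zero]
      · rw [hcoeff1, hc₁, map_mul, hw0, mul_zero]
      · rw [hcoeff2, hc₂, map_mul, hw0, mul_zero]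
    · rw [hcoeff0, hc₀]
      have : (-387420489 : PowerSeries k) = PowerSeries.C (-387420489 : k) := by
        rw [map_neg, map_ofNat]
      rw [this, PowerSeries.coeff_C_mul]
      exact mul_ne_zero (neg_ne_zero.mpr h38) hw1
  have hCtw : (C t : (LaurentSeries k)[X]) * C W = 1 := by rw [← C_mul, htw, C_1]
  have hjW : j = t + 756 + 196830 * W + 19131876 * W ^ 2 + 387420489 * W ^ 3 := by
    linear_combination (W ^ 3) * e1 +
      (-j * ((t * W) ^ 2 + t * W + 1) + (t + 756) * ((t * W) ^ 2 + t * W + 1)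
        + 196830 * W * (t * W + 1) + 19131876 * W ^ 2) * htw
  have hj₃W : j₃ = t ^ 3 + 36 * t ^ 2 + 270 * t + 756 + 729 * W := by
    linear_combination W * e2 + (-j₃ + t ^ 3 + 36 * t ^ 2 + 270 * t + 756) * htw
  have hc₀' : HahnSeries.ofPowerSeries ℤ k c₀ = -387420489 * W := by
    rw [hc₀, map_mul, map_neg, map_ofNat]
  have hc₁' : HahnSeries.ofPowerSeries ℤ k c₁ = (-387420489 * W - 19131876) * W := by
    rw [hc₁, map_mul, map_sub, hc₀', map_ofNat]
  have hc₂' : HahnSeries.ofPowerSeries ℤ k c₂ =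
      ((-387420489 * W - 19131876) * W - 196830) * W := by
    rw [hc₂, map_mul, map_sub, hc₁', map_ofNat]
  have hHmap : H.map (HahnSeries.ofPowerSeries ℤ k) =
      X ^ 3 + (C (((-387420489 * W - 19131876) * W - 196830) * W) * X ^ 2
        + C ((-387420489 * W - 19131876) * W) * X + C (-387420489 * W)) := by
    rw [hH, Polynomial.map_add, Polynomial.map_add, Polynomial.map_add, Polynomial.map_pow,
      Polynomial.map_mul, Polynomial.map_mul, Polynomial.map_pow, map_X, map_C, map_C, map_C,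
      hc₀', hc₁', hc₂']
  have hFfac : ((X + 27) * (X + 243) ^ 3 - C j * X ^ 3 : (LaurentSeries k)[X]) =
      (X - C t) * H.map (HahnSeries.ofPowerSeries ℤ k) := by
    rw [hHmap, hjW]
    simp only [C_add, C_mul, C_sub, C_neg, C_pow, map_ofNat]
    linear_combination (-((196830 - (-387420489 * C W - 19131876) * C W) * X ^ 2
      + (19131876 + 387420489 * C W) * X + 387420489)) * hCtw
  set h₂ : (LaurentSeries k)[X] :=
    X ^ 3 + (C (36 + t) * X ^ 2 + C (270 + 36 * t + t ^ 2) * X + C (-729 * W)) with hh₂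
  have hGfac : ((X + 27) * (X + 3) ^ 3 - C j₃ * X : (LaurentSeries k)[X]) = (X - C t) * h₂ := by
    rw [hh₂, hj₃W]
    simp only [C_add, C_mul, C_neg, C_pow, map_ofNat]
    linear_combination (-729) * hCtw
  have hh₂deg : (C (36 + t) * X ^ 2 + C (270 + 36 * t + t ^ 2) * X + C (-729 * W) :
      (LaurentSeries k)[X]).degree < ((3 : ℕ) : WithBot ℕ) :=
    lt_of_le_of_lt (degree_quadratic_le) (by norm_num)
  have hh₂monic : h₂.Monic := monic_X_pow_add hh₂deg
  have hh₂nat : h₂.natDegree = 3 := natDegree_X_pow_add_of_degree_lt hh₂deg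
  have hcop : IsCoprime (H.map (HahnSeries.ofPowerSeries ℤ k)) h₂ := by
    refine (hirr.coprime_iff_not_dvd).mpr (fun hdvd => ?_)
    have heq : h₂ = H.map (HahnSeries.ofPowerSeries ℤ k) :=
      eq_of_monic_of_dvd_of_natDegree_le (hHmonic.map _) hh₂monic hdvd
        (by rw [hh₂nat, hHmonic.natDegree_map, hHnat])
    have hc : h₂.coeff 2 = (H.map (HahnSeries.ofPowerSeries ℤ k)).coeff 2 := by rw [← heq]
    have hc' : h₂.coeff 2 = 36 + t := by
      rw [hh₂]
      simp only [coeff_add, coeff_X_pow, coeff_C_mul_X_pow, coeff_C_mul_X, coeff_C]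
      norm_num
    rw [coeff_map, hcoeff2, hc'] at hc
    have ht : t = HahnSeries.ofPowerSeries ℤ k (c₂ - 36) := by
      rw [map_sub, ← hc, map_ofNat]; ring
    have h1 : HahnSeries.ofPowerSeries ℤ k ((c₂ - 36) * w) = 1 := by
      rw [map_mul, ← ht]; exact htw
    have h5 : (c₂ - 36) * w = 1 :=
      HahnSeries.ofPowerSeries_injective (by rw [h1, map_one])
    have h4 := congrArg PowerSeries.constantCoeff h5
    rw [map_mul, hw0, mul_zero, map_one] at h4
    exact zero_ne_one h4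
  set F₀ : K₀[X] := (X + 27) * (X + 243) ^ 3 - C (⟨j, hj⟩ : K₀) * X ^ 3 with hF₀
  set G₀ : K₀[X] := (X + 27) * (X + 3) ^ 3 - C (⟨j₃, hj₃⟩ : K₀) * X with hG₀
  have hFmap : F₀.map K₀.subtype = (X - C t) * H.map (HahnSeries.ofPowerSeries ℤ k) := by
    rw [← hFfac, hF₀]
    simp [Polynomial.map_sub, Polynomial.map_pow, Polynomial.map_add, Polynomial.map_mul]
  have hGmap : G₀.map K₀.subtype = (X - C t) * h₂ := by
    rw [← hGfac, hG₀]
    simp [Polynomial.map_sub, Polynomial.map_pow, Polynomial.map_add, Polynomial.map_mul]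
  have hF0 : F₀ ≠ 0 := by
    intro h0
    rw [h0, Polynomial.map_zero] at hFmap
    exact (mul_ne_zero (X_sub_C_ne_zero t) (hHmonic.map _).ne_zero) hFmap.symm
  exact mem_subfield_of_common_root K₀ t F₀ G₀ _ h₂ hF0 hFmap hGmap hcop

end Level3

end Fermat.Agent.S18.HAUPT7666
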