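import Fermat.Agent.S18.HAUPT.P3
import Fermat.Agent.S18.HAUPT7666.LaurentClosure
import Fermat.Agent.S18.HAUPT7666.Membership
import Fermat.Agent.S28.IrrCore

/-!
# S18 / HAUPT, piece 4 (helper7666): `t_r ∈ ℚ(j, j(q^r))`, `ℚ(X₀(r)) = ℚ(t_r)`,
`A_fin(r) = ℤ_(ℓ)[t_r, 1/t_r]`

Statements VERBATIM from the skeleton `Fermat/Agent/S18/HAUPT/P4.lean` (PL helper442), in the
namespace `Fermat.Agent.S18.HAUPT7666`.  Uses piece 3 through the skeleton (`HAUPT/P3.lean`).

* membership: NOT by the degree argument, but by Eisenstein + gcd (`Membership.lean`):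
  `(Y + 256)³ - j Y² = (Y - t) H`, `H` Eisenstein at `q` hence irreducible over `ℚ((q))`, and the
  cofactor of `Y - t` in `(Y + 16)³ - j₂ Y` has a coefficient with a pole, so is `≠ H`.
  The same proof works over every field with `2 ≠ 0` (resp. `3 ≠ 0`), see `hauptT2_mem_C`,
  `hauptT3_mem_C` (e.g. `tbar ∈ 𝔽_ℓ(jbar, jbar(q^r))`).
* integral closure: `LaurentClosure.lean` (`R[t, 1/t]` is a localisation of `R[X]`).
-/

set_option autoImplicit false

namespace Fermat.Agent.S18.HAUPT7666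

open ModularCurve Polynomial

section Shape

variable {K : Type*} [Field K]

/-- `q⁻¹ · (unit power series)` has an inverse `w ∈ (q) \ (q²)`. -/
theorem exists_inv_series (U : PowerSeries ℤ) (hU : PowerSeries.constantCoeff U = 1) :
    ∃ w : PowerSeries K, PowerSeries.constantCoeff w = 0 ∧ PowerSeries.coeff 1 w ≠ 0 ∧
      (HahnSeries.single (-1 : ℤ) (1 : K) *
        HahnSeries.ofPowerSeries ℤ K (U.map (Int.castRingHom K))) *
          HahnSeries.ofPowerSeries ℤ K w = 1 := by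
  set u : PowerSeries K := U.map (Int.castRingHom K) with hu
  have hu0 : PowerSeries.constantCoeff u = 1 := by
    rw [hu, ← PowerSeries.coeff_zero_eq_constantCoeff_apply, PowerSeries.coeff_map,
      PowerSeries.coeff_zero_eq_constantCoeff_apply, hU]
    simp
  have huinv : u * u⁻¹ = 1 := PowerSeries.mul_inv_cancel u (by rw [hu0]; exact one_ne_zero)
  refine ⟨PowerSeries.X * u⁻¹, by simp, ?_, ?_⟩
  · rw [show (1 : ℕ) = 0 + 1 from rfl, PowerSeries.coeff_succ_X_mul,
      PowerSeries.coeff_zero_eq_constantCoeff_apply, PowerSeries.constantCoeff_inv, hu0]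
    simp
  · rw [map_mul, HahnSeries.ofPowerSeries_X]
    calc HahnSeries.single (-1 : ℤ) (1 : K) * HahnSeries.ofPowerSeries ℤ K u *
          (HahnSeries.single 1 1 * HahnSeries.ofPowerSeries ℤ K u⁻¹)
        = (HahnSeries.single (-1 : ℤ) (1 : K) * HahnSeries.single 1 1) *
          HahnSeries.ofPowerSeries ℤ K (u * u⁻¹) := by rw [map_mul]; ring
      _ = 1 := by
        rw [huinv, HahnSeries.single_mul_single]
        simp

end Shape

/-! ### Transcendence -/

theorem hauptT2_transcendental (K : Type*) [Field K] : Transcendental K (hauptT2 K) := by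
  have hord : (hauptT2 K).order < 0 :=
    lt_of_le_of_lt (HahnSeries.order_le_of_coeff_ne_zero
      (by rw [hauptT2_coeff_neg_one]; exact one_ne_zero)) (by norm_num)
  rintro ⟨p, hp, h⟩
  exact Fermat.Agent.S28.IrrCore.aeval_ne_zero_of_order_neg _ hord p hp h

theorem hauptT3_transcendental (K : Type*) [Field K] : Transcendental K (hauptT3 K) := by
  have hord : (hauptT3 K).order < 0 :=
    lt_of_le_of_lt (HahnSeries.order_le_of_coeff_ne_zero
      (by rw [hauptT3_coeff_neg_one]; exact one_ne_zero)) (by norm_num)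
  rintro ⟨p, hp, h⟩
  exact Fermat.Agent.S28.IrrCore.aeval_ne_zero_of_order_neg _ hord p hp h

/-! ### Membership -/

/-- `t₂ ∈ K(j, j(q²))` over every field `K` with `2 ≠ 0`. -/
theorem hauptT2_mem_C (K : Type*) [Field K] (h2 : (2 : K) ≠ 0) :
    hauptT2 K ∈ modularFunctionFieldC K 2 := by
  obtain ⟨w, hw0, hw1, htw⟩ := exists_inv_series (K := K) hauptU2 hauptU2_constantCoeff
  exact mem_of_haupt_two h2 (modularFunctionFieldC K 2).toSubfield (jqModC K) (jqNModC K 2)
    (hauptT2 K) w hw0 hw1 htw (jqModC_mem K 2) (jqNModC_mem K 2) (hauptT2_jq K) (hauptT2_jq2 K)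

/-- `t₃ ∈ K(j, j(q³))` over every field `K` with `3 ≠ 0`. -/
theorem hauptT3_mem_C (K : Type*) [Field K] (h3 : (3 : K) ≠ 0) :
    hauptT3 K ∈ modularFunctionFieldC K 3 := by
  obtain ⟨w, hw0, hw1, htw⟩ := exists_inv_series (K := K) hauptU3 hauptU3_constantCoeff
  exact mem_of_haupt_three h3 (modularFunctionFieldC K 3).toSubfield (jqModC K) (jqNModC K 3)
    (hauptT3 K) w hw0 hw1 htw (jqModC_mem K 3) (jqNModC_mem K 3) (hauptT3_jq K) (hauptT3_jq3 K)

theorem hauptT2_mem : hauptT2 ℚ ∈ modularFunctionField 2 :=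
  hauptT2_mem_C ℚ (by norm_num)

theorem hauptT3_mem : hauptT3 ℚ ∈ modularFunctionField 3 :=
  hauptT3_mem_C ℚ (by norm_num)

/-! ### `ℚ(X₀(r)) = ℚ(t_r)` -/

/-- `ℚ(X₀(2)) = ℚ(t₂)`. -/
theorem haupt_modularFunctionField_two :
    modularFunctionField 2 = IntermediateField.adjoin ℚ {hauptT2 ℚ} := by
  have ht0 : hauptT2 ℚ ≠ 0 := (hauptT2_isUnit ℚ).ne_zero
  have htmem : hauptT2 ℚ ∈ IntermediateField.adjoin ℚ {hauptT2 ℚ} :=
    IntermediateField.mem_adjoin_simple_self ℚ _
  apply le_antisymm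
  · rw [modularFunctionField, IntermediateField.adjoin_le_iff]
    rintro x (rfl | rfl)
    · have e : jq = (hauptT2 ℚ + 256) ^ 3 / hauptT2 ℚ ^ 2 := by
        rw [eq_div_iff (pow_ne_zero 2 ht0)]
        exact hauptT2_jq ℚ
      rw [e]
      exact div_mem (pow_mem (add_mem htmem (ofNat_mem _ 256)) 3) (pow_mem htmem 2)
    · have e : qExpand ℚ 2 jq = (hauptT2 ℚ + 16) ^ 3 / hauptT2 ℚ := by
        rw [eq_div_iff ht0]
        exact hauptT2_jq2 ℚ
      rw [e]
      exact div_mem (pow_mem (add_mem htmem (ofNat_mem _ 16)) 3) htmem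
  · rw [IntermediateField.adjoin_le_iff]
    rintro x rfl
    exact hauptT2_mem

/-- `ℚ(X₀(3)) = ℚ(t₃)`. -/
theorem haupt_modularFunctionField_three :
    modularFunctionField 3 = IntermediateField.adjoin ℚ {hauptT3 ℚ} := by
  have ht0 : hauptT3 ℚ ≠ 0 := (hauptT3_isUnit ℚ).ne_zero
  have htmem : hauptT3 ℚ ∈ IntermediateField.adjoin ℚ {hauptT3 ℚ} :=
    IntermediateField.mem_adjoin_simple_self ℚ _
  apply le_antisymm
  · rw [modularFunctionField, IntermediateField.adjoin_le_iff]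
    rintro x (rfl | rfl)
    · have e : jq = (hauptT3 ℚ + 27) * (hauptT3 ℚ + 243) ^ 3 / hauptT3 ℚ ^ 3 := by
        rw [eq_div_iff (pow_ne_zero 3 ht0)]
        exact hauptT3_jq ℚ
      rw [e]
      exact div_mem (mul_mem (add_mem htmem (ofNat_mem _ 27))
        (pow_mem (add_mem htmem (ofNat_mem _ 243)) 3)) (pow_mem htmem 3)
    · have e : qExpand ℚ 3 jq = (hauptT3 ℚ + 27) * (hauptT3 ℚ + 3) ^ 3 / hauptT3 ℚ := by
        rw [eq_div_iff ht0]
        exact hauptT3_jq3 ℚ
      rw [e]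
      exact div_mem (mul_mem (add_mem htmem (ofNat_mem _ 27))
        (pow_mem (add_mem htmem (ofNat_mem _ 3)) 3)) htmem
  · rw [IntermediateField.adjoin_le_iff]
    rintro x rfl
    exact hauptT3_mem

/-! ### `ℤ_(p)` -/

theorem isFractionRing_ratLocalizedAt (p : ℕ) :
    IsFractionRing (GaloisRep.ratLocalizedAt p) ℚ := by
  apply IsFractionRing.of_field
  intro z
  refine ⟨⟨(z.num : ℚ), ?_⟩, ⟨(z.den : ℚ), ?_⟩, ?_⟩
  · show ((z.num : ℚ)).den.Coprime p
    simp
  · show ((z.den : ℚ)).den.Coprime p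
    simp
  · exact (Rat.num_div_den z).symm

theorem isIntegrallyClosed_ratLocalizedAt (p : ℕ) (hp : p.Prime) :
    IsIntegrallyClosed (GaloisRep.ratLocalizedAt p) := by
  have := isFractionRing_ratLocalizedAt p
  have : ValuationRing (GaloisRep.ratLocalizedAt p) := by
    rw [ValuationRing.iff_isInteger_or_isInteger _ ℚ]
    intro x
    by_cases hx : x.den.Coprime p
    · exact Or.inl ⟨⟨x, hx⟩, rfl⟩
    · right
      have hpd : p ∣ x.den := by
        rcases Nat.coprime_or_dvd_of_prime hp x.den with h | h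
        · exact absurd h.symm hx
        · exact h
      have hnum : x.num.natAbs.Coprime p :=
        Nat.Coprime.coprime_dvd_right hpd x.reduced
      refine ⟨⟨x⁻¹, ?_⟩, rfl⟩
      show (x⁻¹).den.Coprime p
      have hinv : x⁻¹ = Rat.divInt (x.den : ℤ) x.num := by
        conv_lhs => rw [← Rat.num_divInt_den x, Rat.inv_divInt]
      have hdvd : ((x⁻¹).den : ℤ) ∣ x.num := by
        rw [hinv]
        exact Rat.den_dvd _ _
      exact Nat.Coprime.coprime_dvd_left (Int.natCast_dvd.mp hdvd) hnum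
  infer_instance

/-- `n ≠ 0` is a unit of `ℤ_(p)` when `n` is prime to `p`. -/
theorem isUnit_natCast_ratLocalizedAt (p n : ℕ) (hn0 : n ≠ 0) (hn : n.Coprime p) :
    IsUnit ((n : ℕ) : GaloisRep.ratLocalizedAt p) := by
  have hmem : ((n : ℚ)⁻¹) ∈ GaloisRep.ratLocalizedAt p := by
    show ((n : ℚ)⁻¹).den.Coprime p
    rw [Rat.inv_natCast_den, if_neg hn0]
    exact hn
  refine IsUnit.of_mul_eq_one (⟨(n : ℚ)⁻¹, hmem⟩ : GaloisRep.ratLocalizedAt p)
    (Subtype.ext ?_)
  show ((n : ℕ) : ℚ) * (n : ℚ)⁻¹ = 1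
  exact mul_inv_cancel₀ (by exact_mod_cast hn0)

theorem isScalarTower_ratLocalizedAt (p : ℕ) :
    @IsScalarTower ↥(GaloisRep.ratLocalizedAt p) ℚ (LaurentSeries ℚ) _ Algebra.toSMul
      Algebra.toSMul := by
  refine IsScalarTower.of_algebraMap_eq (R := ↥(GaloisRep.ratLocalizedAt p)) (S := ℚ)
    (A := LaurentSeries ℚ) (fun x => ?_)
  rw [HahnSeries.algebraMap_apply', HahnSeries.algebraMap_apply',
    ← IsScalarTower.algebraMap_apply (↥(GaloisRep.ratLocalizedAt p)) ℚ (PowerSeries ℚ)]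

/-! ### `A_fin(r) = ℤ_(ℓ)[t_r, 1/t_r]` -/

/-- `A_fin(2) = ℤ_(3)[t₂, 1/t₂]`. -/
theorem haupt_integralClosure2 (x : LaurentSeries ℚ) (hx : x ∈ modularFunctionField 2) :
    IsIntegral (Algebra.adjoin (GaloisRep.ratLocalizedAt 3) {jq}) x ↔
      x ∈ Algebra.adjoin (GaloisRep.ratLocalizedAt 3) {hauptT2 ℚ, (hauptT2 ℚ)⁻¹} := by
  have hfr := isFractionRing_ratLocalizedAt 3
  have hic := isIntegrallyClosed_ratLocalizedAt 3 (by norm_num)
  have hst := isScalarTower_ratLocalizedAt 3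
  have hP : ((X + C (256 : GaloisRep.ratLocalizedAt 3)) ^ 3).Monic := (monic_X_add_C _).pow 3
  have hdeg : ((X + C (256 : GaloisRep.ratLocalizedAt 3)) ^ 3).natDegree = 3 := by
    rw [natDegree_pow, natDegree_X_add_C]
  have hcoeff : ((X + C (256 : GaloisRep.ratLocalizedAt 3)) ^ 3).coeff 0 =
      ((16777216 : ℕ) : GaloisRep.ratLocalizedAt 3) := by
    rw [coeff_zero_eq_eval_zero]
    simp
    norm_num
  refine isIntegral_adjoin_iff_mem_adjoin_pair_of_mem (K := ℚ) (hauptT2 ℚ) jq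
    (hauptT2_transcendental ℚ) ((X + C 256) ^ 3) hP 2 (by norm_num) (by rw [hdeg]; norm_num)
    (by rw [hcoeff]; exact isUnit_natCast_ratLocalizedAt 3 16777216 (by norm_num) (by norm_num))
    ?_ x (haupt_modularFunctionField_two ▸ hx)
  rw [map_pow, map_add, aeval_X, aeval_C, map_ofNat]
  exact hauptT2_jq ℚ

/-- `A_fin(3) = ℤ_(2)[t₃, 1/t₃]`. -/
theorem haupt_integralClosure3 (x : LaurentSeries ℚ) (hx : x ∈ modularFunctionField 3) :
    IsIntegral (Algebra.adjoin (GaloisRep.ratLocalizedAt 2) {jq}) x ↔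
      x ∈ Algebra.adjoin (GaloisRep.ratLocalizedAt 2) {hauptT3 ℚ, (hauptT3 ℚ)⁻¹} := by
  have hfr := isFractionRing_ratLocalizedAt 2
  have hic := isIntegrallyClosed_ratLocalizedAt 2 (by norm_num)
  have hst := isScalarTower_ratLocalizedAt 2
  have hP : ((X + C (27 : GaloisRep.ratLocalizedAt 2)) *
      (X + C (243 : GaloisRep.ratLocalizedAt 2)) ^ 3).Monic :=
    (monic_X_add_C _).mul ((monic_X_add_C _).pow 3)
  have hdeg : ((X + C (27 : GaloisRep.ratLocalizedAt 2)) *
      (X + C (243 : GaloisRep.ratLocalizedAt 2)) ^ 3).natDegree = 4 := by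
    rw [(monic_X_add_C _).natDegree_mul ((monic_X_add_C _).pow 3), natDegree_pow,
      natDegree_X_add_C, natDegree_X_add_C]
  have hcoeff : ((X + C (27 : GaloisRep.ratLocalizedAt 2)) *
      (X + C (243 : GaloisRep.ratLocalizedAt 2)) ^ 3).coeff 0 =
      ((387420489 : ℕ) : GaloisRep.ratLocalizedAt 2) := by
    rw [coeff_zero_eq_eval_zero]
    simp
    norm_num
  refine isIntegral_adjoin_iff_mem_adjoin_pair_of_mem (K := ℚ) (hauptT3 ℚ) jq
    (hauptT3_transcendental ℚ) ((X + C 27) * (X + C 243) ^ 3) hP 3 (by norm_num)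
    (by rw [hdeg]; norm_num)
    (by rw [hcoeff]; exact isUnit_natCast_ratLocalizedAt 2 387420489 (by norm_num) (by norm_num))
    ?_ x (haupt_modularFunctionField_three ▸ hx)
  rw [map_mul, map_pow, map_add, map_add, aeval_X, aeval_C, aeval_C, map_ofNat, map_ofNat]
  exact hauptT3_jq ℚ

end Fermat.Agent.S18.HAUPT7666
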